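import Mathlib
import Fermat.Agent.MUL.R38.P.Eps
import Fermat.Agent.MUL.Lib.BadRed.Mod.SSCount23
import Fermat.Agent.MUL.S36.Igusa.Defs
import Fermat.Agent.MUL.S36.Genus.IgGenus

section MergeWrap_S36_Genus_Hno23 -- from S36/Genus/Hno23.lean

set_option autoImplicit false
set_option linter.unusedSectionVars false
set_option linter.style.haveILetI false
set_option synthInstance.maxHeartbeats 400000
set_option maxHeartbeats 1000000

noncomputable section

open AlgebraicCurve Polynomial IntermediateField ModularCurve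

namespace Fermat.Agent.S36G

attribute [local instance 10000] SubalgebraClass.toAlgebra HahnSeries.powerSeriesAlgebra

open Fermat.Agent.GoodRedSmall Fermat.Agent.RR Fermat.Agent.GoodRed Fermat.Agent.S24
  Fermat.Agent.BadRed Fermat.Agent.BadRed.SS23 Fermat.Agent.Deuring

section rel

variable {K F : Type} [Field K] [Field F] [Algebra K F]

/-- `T3` in characteristic `2`: `j x³ = (x + 27)(x + 243)³ = (x + 27)⁴`, so
`ord j = 4 ord (x + 27)` at the zeros of `x + 27`. -/
theorem hno23_ord_T3_two (h2 : (2 : K) = 0) (h27 : (27 : K) ≠ 0) (v : Place K F) {x j : F}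
    (hrel : j * x ^ 3 = (x + 27) * (x + 243) ^ 3)
    (hv : 0 < v.ord (x - algebraMap K F (-27))) :
    v.ord j = 4 * v.ord (x - algebraMap K F (-27)) := by
  have hx0 : v.ord x = 0 := ord_eq_zero_of_sub_pos v (neg_ne_zero.mpr h27) hv
  have e1 : x - algebraMap K F (-27) = x + 27 := sub_algebraMap_neg_ofNat x 27
  have h2F : (2 : F) = 0 := by
    have := congrArg (algebraMap K F) h2
    rwa [map_ofNat, map_zero] at this
  have e243 : (243 : F) = 27 := by
    have : (243 : F) = 27 + 2 * 108 := by norm_num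
    rw [this, h2F, zero_mul, add_zero]
  rw [e243] at hrel
  have hxne : x ≠ 0 := by
    rintro rfl
    rw [e1, zero_add] at hv
    have := ord_const v (27 : K)
    rw [map_ofNat] at this
    omega
  have h27ne : x + 27 ≠ 0 := by
    intro h
    rw [e1, h, v.ord_zero] at hv
    exact lt_irrefl _ hv
  have hjne : j ≠ 0 := by
    rintro rfl
    rw [zero_mul] at hrel
    exact mul_ne_zero h27ne (pow_ne_zero 3 h27ne) hrel.symm
  have h := congrArg v.ord hrel
  rw [v.ord_mul hjne (pow_ne_zero 3 hxne), v.ord_mul h27ne (pow_ne_zero 3 h27ne), ord_pow',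
    ord_pow', hx0, ← e1] at h
  simp only [Nat.cast_ofNat] at h
  linarith

/-- `T2` in characteristic `3`: `j x² = (x + 256)³ = (x + 64)³`, so `ord j = 3 ord (x + 64)` at
the zeros of `x + 64`. -/
theorem hno23_ord_T2_three (h3 : (3 : K) = 0) (h64 : (64 : K) ≠ 0) (v : Place K F) {x j : F}
    (hrel : j * x ^ 2 = (x + 256) ^ 3)
    (hv : 0 < v.ord (x - algebraMap K F (-64))) :
    v.ord j = 3 * v.ord (x - algebraMap K F (-64)) := by
  have heq : (-256 : K) = -64 := by
    have : (256 : K) = 64 + 3 * 64 := by norm_num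
    rw [this, h3, zero_mul, add_zero]
  have h256 : (256 : K) ≠ 0 := by
    intro h0
    apply h64
    have := congrArg Neg.neg heq
    rw [neg_neg, neg_neg] at this
    rw [← this]
    exact h0
  rw [← heq] at hv ⊢
  exact ord_T2 h256 v hrel hv

/-- `T2`, characteristic `≠ 2, 3`, the simple root `-64` over `j = 1728`:
`ord (j - 1728) = ord (x + 64)`. -/
theorem hno23_ord_T2_64 (h64 : (64 : K) ≠ 0) (h576 : (576 : K) ≠ 0) (v : Place K F) {x j : F}
    (hrel : j * x ^ 2 = (x + 256) ^ 3)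
    (hv : 0 < v.ord (x - algebraMap K F (-64))) :
    v.ord (j - algebraMap K F 1728) = v.ord (x - algebraMap K F (-64)) := by
  have hx0 : v.ord x = 0 := ord_eq_zero_of_sub_pos v (neg_ne_zero.mpr h64) hv
  have e1 : x - algebraMap K F (-64) = x + 64 := sub_algebraMap_neg_ofNat x 64
  have h512 : v.ord (x - 512) = 0 := by
    apply ord_eq_zero_of_sub_pos v (neg_ne_zero.mpr h576) (f := x - 512)
    have e : x - 512 - algebraMap K F (-576) = x - algebraMap K F (-64) := by
      rw [e1, map_neg, map_ofNat]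
      ring
    rw [e]
    exact hv
  have hxne : x ≠ 0 := by
    rintro rfl
    rw [e1, zero_add] at hv
    have := ord_const v (64 : K)
    rw [map_ofNat] at this
    omega
  have h64ne : x + 64 ≠ 0 := by
    intro h
    rw [e1, h, v.ord_zero] at hv
    exact lt_irrefl _ hv
  have h512ne : x - 512 ≠ 0 := by
    intro h
    have e : x + 64 = algebraMap K F 576 := by
      have : x + 64 = (x - 512) + 576 := by ring
      rw [this, h, zero_add, map_ofNat]
    rw [e1, e, ord_const] at hv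
    exact lt_irrefl _ hv
  have hrel' : (j - algebraMap K F 1728) * x ^ 2 = (x + 64) * (x - 512) ^ 2 := by
    rw [sub_mul, hrel, map_ofNat]
    ring
  have hjne : j - algebraMap K F 1728 ≠ 0 := by
    intro h0
    rw [h0, zero_mul] at hrel'
    exact mul_ne_zero h64ne (pow_ne_zero 2 h512ne) hrel'.symm
  have h := congrArg v.ord hrel'
  rw [v.ord_mul hjne (pow_ne_zero 2 hxne), v.ord_mul h64ne (pow_ne_zero 2 h512ne), ord_pow',
    ord_pow', hx0, h512, ← e1] at h
  simp only [Nat.cast_ofNat] at h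
  linarith

end rel

section red

variable {K k F Fk : Type} [Field K] [Field k] [Field F] [Field Fk] [Algebra K F] [Algebra k Fk]

/-- the reduced relation of `T3`, explicitly. -/
theorem hno23_rho_T3 (M : RedModel K k F Fk) {x : F}
    (hT : M.x * x ^ 3 = (x + 27) * (x + 243) ^ 3) (hx : x ∈ M.O) :
    M.xbar * M.rho ⟨x, hx⟩ ^ 3 = (M.rho ⟨x, hx⟩ + 27) * (M.rho ⟨x, hx⟩ + 243) ^ 3 := by
  have hO : (⟨M.x, M.x_mem⟩ : M.O) * ⟨x, hx⟩ ^ 3 =
      ((⟨x, hx⟩ : M.O) + 27) * ((⟨x, hx⟩ : M.O) + 243) ^ 3 := Subtype.ext hT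
  have h := congrArg M.rho hO
  rw [map_mul, map_pow, map_mul, map_pow, map_add, map_add, map_ofNat, map_ofNat] at h
  exact h

/-- the reduced relation of `T2`, explicitly. -/
theorem hno23_rho_T2 (M : RedModel K k F Fk) {x : F}
    (hT : M.x * x ^ 2 = (x + 256) ^ 3) (hx : x ∈ M.O) :
    M.xbar * M.rho ⟨x, hx⟩ ^ 2 = (M.rho ⟨x, hx⟩ + 256) ^ 3 := by
  have hO : (⟨M.x, M.x_mem⟩ : M.O) * ⟨x, hx⟩ ^ 2 = ((⟨x, hx⟩ : M.O) + 256) ^ 3 :=
    Subtype.ext hT
  have h := congrArg M.rho hO
  rw [map_mul, map_pow, map_pow, map_add, map_ofNat] at h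
  exact h

end red

section transfer

variable {A : ValuationSubring Kbar}

/-- **transfer at a branch value of a swapped parameter**: `x` a parameter of `F_N` in the Gauss
ring with degree data and branch data (cluster B), good reduction (`g(F_N) = g(F_{N,k})`).  Every
zero `Q` of `x̄ - c̄`, `c` a branch value, is the reduction of a zero `P` of `x - c` with
`ord_Q (x̄ - c̄) = ord_P (x - c)`. -/
theorem hno23_transfer (N : ℕ) [NeZero N] {ℓ : ℕ} (hℓ : ℓ.Prime) (hA : A.LiesOverPrime ℓ)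
    (hℓN : ¬ ℓ ∣ N)
    (hg : genusFF Kbar (FBar N) = genusFF (IsLocalRing.ResidueField A)
      ↥(modularFunctionFieldFullC (IsLocalRing.ResidueField A) N))
    (x : FBar N) (hxtr : Transcendental Kbar x)
    (hx : x ∈ (modularRedModel N hℓ hA (rangeAt N hℓ hA hℓN)).O)
    (htr : Transcendental (IsLocalRing.ResidueField A)
      ((modularRedModel N hℓ hA (rangeAt N hℓ hA hℓN)).rho ⟨x, hx⟩))
    (n' : ℕ) (hdeg' : DegData (swapX (modularRedModel N hℓ hA (rangeAt N hℓ hA hℓN)) x hx htr) n')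
    (BD : BranchData (swapX (modularRedModel N hℓ hA (rangeAt N hℓ hA hℓN)) x hx htr) n')
    (c : Kbar) (hc : c ∈ BD.S) (hcA : c ∈ A)
    (Q : Place (IsLocalRing.ResidueField A)
      ↥(modularFunctionFieldFullC (IsLocalRing.ResidueField A) N))
    (hQ : 0 < Q.ord ((modularRedModel N hℓ hA (rangeAt N hℓ hA hℓN)).rho ⟨x, hx⟩ -
      algebraMap (IsLocalRing.ResidueField A) _ (IsLocalRing.residue A ⟨c, hcA⟩))) :
    ∃ P : Place Kbar (FBar N), 0 < P.ord (x - algebraMap Kbar (FBar N) c) ∧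
      Q.ord ((modularRedModel N hℓ hA (rangeAt N hℓ hA hℓN)).rho ⟨x, hx⟩ -
        algebraMap (IsLocalRing.ResidueField A) _ (IsLocalRing.residue A ⟨c, hcA⟩)) =
        P.ord (x - algebraMap Kbar (FBar N) c) := by
  haveI : IsAlgClosed (IsLocalRing.ResidueField A) :=
    Fermat.Agent.FrobTrace.isAlgClosed_residueField A
  haveI := Fermat.Agent.GaussInt.infinite_residue A
  set M := modularRedModel N hℓ hA (rangeAt N hℓ hA hℓN) with hM
  set S := Fermat.Agent.GaussInt.modularValSetup A ℓ N hℓ hA hℓN with hS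
  obtain ⟨r, hpush, -, -⟩ := exists_reduction S
    (Fermat.Agent.GaussInt.hasLattice_modularValSetup A ℓ N hℓ hA hℓN) hg
  have hd1 : Module.finrank Kbar⟮x⟯ (FBar N) = n' := hdeg'.deg
  have hd2 : Module.finrank (IsLocalRing.ResidueField A)⟮M.rho ⟨x, hx⟩⟯
      ↥(modularFunctionFieldFullC (IsLocalRing.ResidueField A) N) = n' := hdeg'.degk
  haveI : FiniteDimensional Kbar⟮x⟯ (FBar N) :=
    Module.finite_of_finrank_pos (lt_of_lt_of_eq hdeg'.pos hd1.symm)
  haveI : FiniteDimensional (IsLocalRing.ResidueField A)⟮M.rho ⟨x, hx⟩⟯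
      ↥(modularFunctionFieldFullC (IsLocalRing.ResidueField A) N) :=
    Module.finite_of_finrank_pos (lt_of_lt_of_eq hdeg'.pos hd2.symm)
  have hdeg : Module.finrank Kbar⟮x⟯ (FBar N) =
      Module.finrank (IsLocalRing.ResidueField A)⟮M.rho ⟨x, hx⟩⟯
        ↥(modularFunctionFieldFullC (IsLocalRing.ResidueField A) N) := hd1.trans hd2.symm
  have hxS : x ∈ S.Ov := hx
  have hcS : c ∈ S.A := hcA
  have hredx : S.red x = M.rho ⟨x, hx⟩ := by
    apply Subtype.ext
    rw [Fermat.Agent.GaussInt.coe_modularValSetup_red A ℓ N hℓ hA hℓN (f := x) hx]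
    rfl
  have hred : S.red (x - algebraMap Kbar (FBar N) c) =
      M.rho ⟨x, hx⟩ - algebraMap (IsLocalRing.ResidueField A) _
        (IsLocalRing.residue A ⟨c, hcA⟩) := by
    rw [S.red_sub hxS (S.algebraMap_mem hcS), hredx, S.red_algebraMap hcS]
    rfl
  have hne : S.red (x - algebraMap Kbar (FBar N) c) ≠ 0 := by
    rw [hred]
    intro h0
    have := Fermat.Agent.R38.r38_transcendental_sub htr (IsLocalRing.residue A ⟨c, hcA⟩)
    rw [h0] at this
    exact this isAlgebraic_zero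
  have hfe := card_zeros_red_eq (swapX M x hx htr) n' hdeg' BD c hc hcA
  exact Fermat.Agent.R38.r38_ord_red_transfer S r hpush hxtr htr hdeg c
    (IsLocalRing.residue A ⟨c, hcA⟩) (sub_mem hxS (S.algebraMap_mem hcS))
    (S.inv_mem_of_red_ne_zero hne) hred (le_of_eq hfe.symm) Q hQ

end transfer

section main

variable {A : ValuationSubring Kbar}

/-- **`q = 2`**: `ord_Q j̄ = 12` at every zero of `j̄` on `X₀(N)` mod `2`
(`3 ∣ N`, `2 ∤ N`, `ν₃(N) = 0`). -/
theorem hno23_ord_jC_two (N : ℕ) [NeZero N] (h3N : 3 ∣ N) (h2N : ¬ 2 ∣ N) (hν : nuThree N = 0)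
    (hA : A.LiesOverPrime 2)
    (Q : Place (IsLocalRing.ResidueField A)
      ↥(modularFunctionFieldFullC (IsLocalRing.ResidueField A) N))
    (hQ : 0 < Q.ord (Fermat.Agent.RRMod.jC (IsLocalRing.ResidueField A) N)) :
    Q.ord (Fermat.Agent.RRMod.jC (IsLocalRing.ResidueField A) N) = 12 := by
  haveI : IsAlgClosed (IsLocalRing.ResidueField A) :=
    Fermat.Agent.FrobTrace.isAlgClosed_residueField A
  have hℓ : Nat.Prime 2 := Nat.prime_two
  have hdeg := Fermat.Agent.IgusaDeg.degData_modular N hℓ hA (rangeAt N hℓ hA h2N) h2N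
  have hcop : Nat.Coprime 3 2 := by norm_num
  have h3 : (3 : IsLocalRing.ResidueField A) ≠ 0 := by
    have := Final23.natCast_residue_ne_zero hA hcop
    exact_mod_cast this
  have h2 : (2 : IsLocalRing.ResidueField A) = 0 := by
    have := natCast_residue_eq_zero hℓ hA
    exact_mod_cast this
  have h27 : (27 : IsLocalRing.ResidueField A) ≠ 0 := by
    have : (27 : IsLocalRing.ResidueField A) = 3 ^ 3 := by norm_num
    rw [this]
    exact pow_ne_zero _ h3
  obtain ⟨x, hxT⟩ := existsT3At N h3N existsT3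
  obtain ⟨hx, htr, n', hdeg', BD, hS⟩ :=
    branchT3 N (unramT3 N (ordDvd N)) _ _ (modularRedModel N hℓ hA (rangeAt N hℓ hA h2N)) _ rfl
      hdeg h3 x hxT
  have hmem : -((27 : ℕ) : Kbar) ∈ BD.S := (hS _).mpr (Or.inr (by norm_num))
  have hcA : -((27 : ℕ) : Kbar) ∈ A := BD.S_mem _ hmem
  have hres : IsLocalRing.residue A ⟨-((27 : ℕ) : Kbar), hcA⟩ = -27 := by
    have h := res_neg_natCast (swapX (modularRedModel N hℓ hA (rangeAt N hℓ hA h2N)) x hx htr)
      27 hcA
    have e2 : (-((27 : ℕ) : IsLocalRing.ResidueField A)) = -27 := by norm_num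
    rw [e2] at h
    exact h
  have hRRk := Fermat.Agent.RRMod.isRRField_fullC' (IsLocalRing.ResidueField A) N
  have hT' : (modularRedModel N hℓ hA (rangeAt N hℓ hA h2N)).x * x ^ 3 =
      (x + 27) * (x + 243) ^ 3 := hxT
  have hiff := ord_xbar_pos_iff_T3 (modularRedModel N hℓ hA (rangeAt N hℓ hA h2N)) hRRk h3 h2
    hT' hx htr
  rw [Fermat.Agent.IgusaDeg.modularRedModel_xbar] at hiff
  have hrel := hno23_rho_T3 (modularRedModel N hℓ hA (rangeAt N hℓ hA h2N)) hT' hx
  rw [Fermat.Agent.IgusaDeg.modularRedModel_xbar] at hrel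
  -- the local bound
  have hbound : ∀ Q' : Place (IsLocalRing.ResidueField A)
      ↥(modularFunctionFieldFullC (IsLocalRing.ResidueField A) N),
      0 < Q'.ord (Fermat.Agent.RRMod.jC (IsLocalRing.ResidueField A) N) →
        Q'.ord (Fermat.Agent.RRMod.jC (IsLocalRing.ResidueField A) N) ≤ 12 := by
    intro Q' hQ'
    have hpos := (hiff Q').mp hQ'
    have h4 := hno23_ord_T3_two h2 h27 Q' hrel hpos
    have hpos' : 0 < Q'.ord ((modularRedModel N hℓ hA (rangeAt N hℓ hA h2N)).rho ⟨x, hx⟩ -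
        algebraMap (IsLocalRing.ResidueField A) _
          (IsLocalRing.residue A ⟨-((27 : ℕ) : Kbar), hcA⟩)) := by
      rw [hres]
      exact hpos
    obtain ⟨P, hP, hPQ⟩ := hno23_transfer N hℓ hA h2N (genusFF_eq_two N h3N h2N hA) x
      (Unram.transcendental_of_isT3 N hxT) hx htr n' hdeg' BD _ hmem hcA Q' hpos'
    rw [hres] at hPQ
    have e1 : (-((27 : ℕ) : Kbar)) = (-27 : Kbar) := by norm_num
    rw [e1] at hP hPQ
    have hj := ord_T3_a (by norm_num : (216 : Kbar) ≠ 0) (by norm_num : (27 : Kbar) ≠ 0) P hxT hP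
    have hP0 : 0 < P.ord (jBar N - algebraMap Kbar (FBar N) 0) := by
      rw [map_zero, sub_zero, hj]
      exact hP
    have hd := (ordDvd N 0 P hP0).1 rfl
    rw [map_zero, sub_zero, hj] at hd
    have hle := Int.le_of_dvd (by norm_num) hd
    rw [h4, hPQ]
    omega
  -- the global count
  obtain ⟨s, hs, hsum, hcard⟩ :=
    Fermat.Agent.R38.r38_fibre_jC N hℓ hA h2N (0 : IsLocalRing.ResidueField A)
  simp only [map_zero, sub_zero] at hs hsum hcard
  have h12 := twelve_card_ss_two N h3N h2N hA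
  rw [hν, mul_zero, add_zero, ← index_Gamma0, ← hcard] at h12
  refine Fermat.Agent.R38.r38_all_eq_of_sum s
    (fun Q' => Q'.ord (Fermat.Agent.RRMod.jC (IsLocalRing.ResidueField A) N)) 12
    (fun Q' hQ' => hbound Q' ((hs Q').mp hQ')) ?_ Q ((hs Q).mpr hQ)
  rw [hsum, ← h12]
  push_cast
  ring

/-- **`q = 3`**: `ord_Q j̄ = 6` at every zero of `j̄` on `X₀(N)` mod `3`
(`2 ∣ N`, `3 ∤ N`, `ν₂(N) = 0`). -/
theorem hno23_ord_jC_three (N : ℕ) [NeZero N] (h2N : 2 ∣ N) (h3N : ¬ 3 ∣ N) (hν : nuTwo N = 0)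
    (hA : A.LiesOverPrime 3)
    (Q : Place (IsLocalRing.ResidueField A)
      ↥(modularFunctionFieldFullC (IsLocalRing.ResidueField A) N))
    (hQ : 0 < Q.ord (Fermat.Agent.RRMod.jC (IsLocalRing.ResidueField A) N)) :
    Q.ord (Fermat.Agent.RRMod.jC (IsLocalRing.ResidueField A) N) = 6 := by
  haveI : IsAlgClosed (IsLocalRing.ResidueField A) :=
    Fermat.Agent.FrobTrace.isAlgClosed_residueField A
  have hℓ : Nat.Prime 3 := Nat.prime_three
  have hdeg := Fermat.Agent.IgusaDeg.degData_modular N hℓ hA (rangeAt N hℓ hA h3N) h3N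
  have hcop : Nat.Coprime 2 3 := by norm_num
  have h2 : (2 : IsLocalRing.ResidueField A) ≠ 0 := by
    have := Final23.natCast_residue_ne_zero hA hcop
    exact_mod_cast this
  have h3 : (3 : IsLocalRing.ResidueField A) = 0 := by
    have := natCast_residue_eq_zero hℓ hA
    exact_mod_cast this
  have h64 : (64 : IsLocalRing.ResidueField A) ≠ 0 := by
    have : (64 : IsLocalRing.ResidueField A) = 2 ^ 6 := by norm_num
    rw [this]
    exact pow_ne_zero _ h2
  obtain ⟨x, hxT⟩ := existsT2At N h2N existsT2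
  obtain ⟨hx, htr, n', hdeg', BD, hS⟩ :=
    branchT2 N (unramT2 N (ordDvd N)) _ _ (modularRedModel N hℓ hA (rangeAt N hℓ hA h3N)) _ rfl
      hdeg h2 x hxT
  have hmem : -((64 : ℕ) : Kbar) ∈ BD.S := (hS _).mpr (Or.inr (by norm_num))
  have hcA : -((64 : ℕ) : Kbar) ∈ A := BD.S_mem _ hmem
  have hres : IsLocalRing.residue A ⟨-((64 : ℕ) : Kbar), hcA⟩ = -64 := by
    have h := res_neg_natCast (swapX (modularRedModel N hℓ hA (rangeAt N hℓ hA h3N)) x hx htr)
      64 hcA
    have e2 : (-((64 : ℕ) : IsLocalRing.ResidueField A)) = -64 := by norm_num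
    rw [e2] at h
    exact h
  have hRRk := Fermat.Agent.RRMod.isRRField_fullC' (IsLocalRing.ResidueField A) N
  have hT' : (modularRedModel N hℓ hA (rangeAt N hℓ hA h3N)).x * x ^ 2 = (x + 256) ^ 3 := hxT
  have hiff := ord_xbar_pos_iff_T2 (modularRedModel N hℓ hA (rangeAt N hℓ hA h3N)) hRRk h2 h3
    hT' hx htr
  rw [Fermat.Agent.IgusaDeg.modularRedModel_xbar] at hiff
  have hrel := hno23_rho_T2 (modularRedModel N hℓ hA (rangeAt N hℓ hA h3N)) hT' hx
  rw [Fermat.Agent.IgusaDeg.modularRedModel_xbar] at hrel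
  -- the local bound
  have hbound : ∀ Q' : Place (IsLocalRing.ResidueField A)
      ↥(modularFunctionFieldFullC (IsLocalRing.ResidueField A) N),
      0 < Q'.ord (Fermat.Agent.RRMod.jC (IsLocalRing.ResidueField A) N) →
        Q'.ord (Fermat.Agent.RRMod.jC (IsLocalRing.ResidueField A) N) ≤ 6 := by
    intro Q' hQ'
    have hpos := (hiff Q').mp hQ'
    have h4 := hno23_ord_T2_three h3 h64 Q' hrel hpos
    have hpos' : 0 < Q'.ord ((modularRedModel N hℓ hA (rangeAt N hℓ hA h3N)).rho ⟨x, hx⟩ -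
        algebraMap (IsLocalRing.ResidueField A) _
          (IsLocalRing.residue A ⟨-((64 : ℕ) : Kbar), hcA⟩)) := by
      rw [hres]
      exact hpos
    obtain ⟨P, hP, hPQ⟩ := hno23_transfer N hℓ hA h3N (genusFF_eq_three N h2N h3N hA) x
      (Unram.transcendental_of_isT2 N hxT) hx htr n' hdeg' BD _ hmem hcA Q' hpos'
    rw [hres] at hPQ
    have e1 : (-((64 : ℕ) : Kbar)) = (-64 : Kbar) := by norm_num
    rw [e1] at hP hPQ
    have hj := hno23_ord_T2_64 (by norm_num : (64 : Kbar) ≠ 0) (by norm_num : (576 : Kbar) ≠ 0)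
      P hxT hP
    have hP0 : 0 < P.ord (jBar N - algebraMap Kbar (FBar N) 1728) := by
      rw [hj]
      exact hP
    have hd := (ordDvd N 1728 P hP0).2.1 rfl
    rw [hj] at hd
    have hle := Int.le_of_dvd (by norm_num) hd
    rw [h4, hPQ]
    omega
  -- the global count
  obtain ⟨s, hs, hsum, hcard⟩ :=
    Fermat.Agent.R38.r38_fibre_jC N hℓ hA h3N (0 : IsLocalRing.ResidueField A)
  simp only [map_zero, sub_zero] at hs hsum hcard
  have h12 := twelve_card_ss_three N h2N h3N hA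
  rw [hν, mul_zero, add_zero, ← index_Gamma0, ← hcard] at h12
  refine Fermat.Agent.R38.r38_all_eq_of_sum s
    (fun Q' => Q'.ord (Fermat.Agent.RRMod.jC (IsLocalRing.ResidueField A) N)) 6
    (fun Q' hQ' => hbound Q' ((hs Q').mp hQ')) ?_ Q ((hs Q).mpr hQ)
  rw [hsum]
  have h12' : ((CongruenceSubgroup.Gamma0 N).index : ℤ) = 6 * (s.card : ℤ) := by
    have : 12 * s.card = 2 * (CongruenceSubgroup.Gamma0 N).index := h12
    omega
  rw [h12']

/-- **(HNO) at `q = 2, 3`**: `ord_P u = 12` at every zero `P` of the function `u` with expansion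
`ssFun k q` (`q = 2`: `3 ∣ M₀`, `ν₃(M₀) = 0`; `q = 3`: `2 ∣ M₀`, `ν₂(M₀) = 0`). -/
theorem hno23_ord_ssFun (M₀ : ℕ) [NeZero M₀] {q : ℕ} (hq : q = 2 ∨ q = 3) (hqM : ¬ q ∣ M₀)
    (h2 : q = 2 → 3 ∣ M₀) (h3 : q = 3 → 2 ∣ M₀)
    (hν2 : q = 3 → nuTwo M₀ = 0) (hν3 : q = 2 → nuThree M₀ = 0)
    (hA : A.LiesOverPrime q)
    (P : Place (IsLocalRing.ResidueField A)
      ↥(modularFunctionFieldFullC (IsLocalRing.ResidueField A) M₀))
    (u : ↥(modularFunctionFieldFullC (IsLocalRing.ResidueField A) M₀))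
    (hu : (u : LaurentSeries (IsLocalRing.ResidueField A)) =
      ssFun (IsLocalRing.ResidueField A) q)
    (hP : 0 < P.ord u) : P.ord u = 12 := by
  rcases hq with rfl | rfl
  · have hk2 : (2 : IsLocalRing.ResidueField A) = 0 := by
      have := natCast_residue_eq_zero Nat.prime_two hA
      exact_mod_cast this
    have hj : u = Fermat.Agent.RRMod.jC (IsLocalRing.ResidueField A) M₀ := by
      apply Subtype.ext
      rw [hu, ssFun_two _ hk2]
      rfl
    rw [hj] at hP ⊢
    exact hno23_ord_jC_two M₀ (h2 rfl) hqM (hν3 rfl) hA P hP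
  · have hk3 : (3 : IsLocalRing.ResidueField A) = 0 := by
      have := natCast_residue_eq_zero Nat.prime_three hA
      exact_mod_cast this
    have hj : u = Fermat.Agent.RRMod.jC (IsLocalRing.ResidueField A) M₀ ^ 2 := by
      apply Subtype.ext
      rw [hu, ssFun_three _ hk3]
      rfl
    rw [hj, ord_pow'] at hP ⊢
    have hpos : 0 < P.ord (Fermat.Agent.RRMod.jC (IsLocalRing.ResidueField A) M₀) := by
      have : (0 : ℤ) < 2 * P.ord (Fermat.Agent.RRMod.jC (IsLocalRing.ResidueField A) M₀) := by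
        exact_mod_cast hP
      omega
    rw [hno23_ord_jC_three M₀ (h3 rfl) hqM (hν2 rfl) hA P hpos]
    norm_num

/-- **(HNO) at `q = 2, 3`, in the shape of the hypothesis `hno` of `IgTotRam`**: at every
supersingular place `P` of `X₀(M₀)` mod `q`, `ord_P ssFun = 12`. -/
theorem hno23 (M₀ : ℕ) [NeZero M₀] {q : ℕ} (hq : q = 2 ∨ q = 3) (hqM : ¬ q ∣ M₀)
    (h2 : q = 2 → 3 ∣ M₀) (h3 : q = 3 → 2 ∣ M₀)
    (hν2 : nuTwo M₀ = 0) (hν3 : nuThree M₀ = 0)
    (hA : A.LiesOverPrime q)
    (P : Place (IsLocalRing.ResidueField A)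
      ↥(modularFunctionFieldFullC (IsLocalRing.ResidueField A) M₀))
    (hP : IsSSPlace (IsLocalRing.ResidueField A) M₀ q P) :
    ∀ u : ↥(modularFunctionFieldFullC (IsLocalRing.ResidueField A) M₀),
      (u : LaurentSeries (IsLocalRing.ResidueField A)) = ssFun (IsLocalRing.ResidueField A) q →
        P.ord u = 12 := by
  intro u hu
  obtain ⟨u', hu', hpos⟩ := hP
  have e : u' = u := Subtype.ext (hu'.trans hu.symm)
  rw [e] at hpos
  exact hno23_ord_ssFun M₀ hq hqM h2 h3 (fun _ => hν2) (fun _ => hν3) hA P u hu hpos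

end main

end Fermat.Agent.S36G
end
end MergeWrap_S36_Genus_Hno23
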