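import Mathlib
import Fermat.Agent.MUL.S36.Genus.Arith
import Fermat.Agent.MUL.S36.Genus.SS
import Fermat.Agent.MUL.S20.Cosets.Count
import Fermat.Agent.MUL.S36.G.VtxFamily

section MergeWrap_S36_Genus_SSPos -- from S36/Genus/SSPos.lean
attribute [local instance 10000] SubalgebraClass.toAlgebra HahnSeries.powerSeriesAlgebra

/-!
# Cluster G (S36), seat GENUS: there is a supersingular place  (helper98)

`q` prime, `q ∤ M₀`, `M₀` without elliptic points (`q = 2`: `3 ∣ M₀`; `q = 3`: `2 ∣ M₀`), `A | q`: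

* `gen_twelve_ss_card_ge` : `(q - 1) ψ(M₀) ≤ 12 s`, `s` the number of supersingular places of
  `X₀(M₀)` mod `q`;
* `gen_ss_card_pos`, `gen_nonempty_isSSPlace` : `s ≥ 1` (the modular graph is connected).
-/

set_option autoImplicit false
set_option linter.unusedSectionVars false
set_option linter.style.haveILetI false
set_option synthInstance.maxHeartbeats 400000
set_option maxHeartbeats 1000000

noncomputable section

open ModularCurve AlgebraicCurve

namespace Fermat.Agent.S36G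

local notation "Qb" => AlgebraicClosure ℚ

variable {A : ValuationSubring Qb}

/-- `12 (g(qM₀) + 1) = 24 g(M₀) + (q - 1) ψ(M₀)` for the genera of the function fields. -/
theorem gen_genusFF_mul (M₀ N₁ : ℕ) [NeZero M₀] [NeZero N₁] {q : ℕ} (hq : q.Prime)
    (hqM : ¬ q ∣ M₀) (hN₁ : N₁ = q * M₀) (h2 : nuTwo M₀ = 0) (h3 : nuThree M₀ = 0) :
    12 * (genusFF Qb ↥(modularFunctionFieldBar N₁) + 1) =
      24 * genusFF Qb ↥(modularFunctionFieldBar M₀) + (q - 1) * dedekindPsi M₀ := by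
  subst hN₁
  have h := gen_genusFormula_mul hq hqM (NeZero.ne M₀) h2 h3
  rw [← Fermat.Agent.GenusEq.genusFF_modularFunctionFieldBar M₀,
    ← Fermat.Agent.GenusEq.genusFF_modularFunctionFieldBar (q * M₀)] at h
  have e : ((q - 1 : ℕ) : ℚ) = (q : ℚ) - 1 := by
    rw [Nat.cast_sub hq.one_le, Nat.cast_one]
  have : ((12 * (genusFF Qb ↥(modularFunctionFieldBar (q * M₀)) + 1) : ℕ) : ℚ) =
      ((24 * genusFF Qb ↥(modularFunctionFieldBar M₀) + (q - 1) * dedekindPsi M₀ : ℕ) : ℚ) := by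
    push_cast
    rw [e]
    linarith
  exact_mod_cast this

/-- `(q - 1) ψ(M₀) ≤ 12 s`. -/
theorem gen_twelve_ss_card_ge (M₀ : ℕ) [NeZero M₀] {q : ℕ} (hq : q.Prime)
    (hqM : ¬ q ∣ M₀) (hν2 : nuTwo M₀ = 0) (hν3 : nuThree M₀ = 0)
    (h2 : q = 2 → 3 ∣ M₀) (h3 : q = 3 → 2 ∣ M₀) (hA : A.LiesOverPrime q) :
    (q - 1) * dedekindPsi M₀ ≤
      12 * Nat.card {P : Place (IsLocalRing.ResidueField A)
          ↥(modularFunctionFieldFullC (IsLocalRing.ResidueField A) M₀) //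
            IsSSPlace (IsLocalRing.ResidueField A) M₀ q P} := by
  haveI : NeZero (q * M₀) := ⟨Nat.mul_ne_zero hq.ne_zero (NeZero.ne M₀)⟩
  have hres := gen_genusFF_residue M₀ hq hqM h2 h3 hA
  have hss := gen_ss_card_ge M₀ (q * M₀) hq hqM rfl h2 h3 hA
  have hg := gen_genusFF_mul M₀ (q * M₀) hq hqM rfl hν2 hν3
  rw [← hres] at hss
  omega

/-- there is at least one supersingular place. -/
theorem gen_ss_card_pos (M₀ : ℕ) [NeZero M₀] {q : ℕ} (hq : q.Prime)
    (hqM : ¬ q ∣ M₀) (hν2 : nuTwo M₀ = 0) (hν3 : nuThree M₀ = 0)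
    (h2 : q = 2 → 3 ∣ M₀) (h3 : q = 3 → 2 ∣ M₀) (hA : A.LiesOverPrime q) :
    0 < Nat.card {P : Place (IsLocalRing.ResidueField A)
          ↥(modularFunctionFieldFullC (IsLocalRing.ResidueField A) M₀) //
            IsSSPlace (IsLocalRing.ResidueField A) M₀ q P} := by
  have h := gen_twelve_ss_card_ge M₀ hq hqM hν2 hν3 h2 h3 hA
  have hψ : 0 < dedekindPsi M₀ := by
    unfold dedekindPsi
    apply Finset.sum_pos'
    · intro d _
      exact Nat.zero_le _
    · refine ⟨1, ?_, ?_⟩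
      · rw [Finset.mem_filter, Nat.mem_divisors]
        exact ⟨⟨one_dvd _, NeZero.ne M₀⟩, squarefree_one⟩
      · rw [Nat.div_one]
        exact Nat.pos_of_ne_zero (NeZero.ne M₀)
  have hq1 : 0 < q - 1 := by have := hq.two_le; omega
  have : 0 < (q - 1) * dedekindPsi M₀ := Nat.mul_pos hq1 hψ
  omega

theorem gen_nonempty_isSSPlace (M₀ : ℕ) [NeZero M₀] {q : ℕ} (hq : q.Prime)
    (hqM : ¬ q ∣ M₀) (hν2 : nuTwo M₀ = 0) (hν3 : nuThree M₀ = 0)
    (h2 : q = 2 → 3 ∣ M₀) (h3 : q = 3 → 2 ∣ M₀) (hA : A.LiesOverPrime q) :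
    Nonempty {P : Place (IsLocalRing.ResidueField A)
          ↥(modularFunctionFieldFullC (IsLocalRing.ResidueField A) M₀) //
            IsSSPlace (IsLocalRing.ResidueField A) M₀ q P} := by
  have h := gen_ss_card_pos M₀ hq hqM hν2 hν3 h2 h3 hA
  exact (Nat.card_pos_iff.mp h).1

end Fermat.Agent.S36G
end
end MergeWrap_S36_Genus_SSPos
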