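import Mathlib
import Fermat.Agent.MUL.S36.Igusa.Defs
import Fermat.Agent.MUL.Lib.HP.Genus
import Fermat.Agent.MUL.S36.G.ModCore

section MergeWrap_S36_Genus_Small -- from S36/Genus/Small.lean

/-!
# Cluster G (S36), seat GENUS: the bounds `hM` (for `q = 2, 3`) and `hP`  (helper98)

* `gen_midCard_mul_midDeg` : `|Mid| e_m = q - 1`;
* `gen_midDeg_small`       : `e_m = 1` for `q = 2, 3`;
* `gen_igField_eq`         : `igField k M₀ = k(Z)` if `θ j̄ ∈ k(Z)` (`IgKummer` at `q = 2, 3`);
* `gen_hM_small`           : the bound `hM` of `gen_genus_le_modular` for `q = 2, 3`;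
* `gen_hP`                 : `q + 1 = |Mid| + 2 g(H_P)` for an `HPCurve` over a field of
  characteristic `q` (helper48's `Lib/HP/Genus`).
-/

set_option autoImplicit false
set_option linter.unusedSectionVars false
set_option linter.style.haveILetI false

noncomputable section

open ModularCurve AlgebraicCurve

namespace Fermat.Agent.S36G

theorem gen_midCard_two : midCard 2 = 1 := by
  unfold midCard
  rw [if_pos rfl]

theorem gen_midCard_odd {q : ℕ} (hq : q ≠ 2) : midCard q = 2 := by
  unfold midCard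
  rw [if_neg hq]

theorem gen_midDeg_two : midDeg 2 = 1 := by
  unfold midDeg
  rw [gen_midCard_two]

theorem gen_midDeg_three : midDeg 3 = 1 := by
  unfold midDeg
  rw [gen_midCard_odd (by norm_num)]

/-- `|Mid| e_m = q - 1`. -/
theorem gen_midCard_mul_midDeg {q : ℕ} (hq : q.Prime) : midCard q * midDeg q = q - 1 := by
  by_cases h2 : q = 2
  · subst h2
    rw [gen_midCard_two, gen_midDeg_two]
  · unfold midDeg
    rw [gen_midCard_odd h2]
    have hodd : q % 2 = 1 := by
      rcases hq.eq_two_or_odd with h | h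
      · exact absurd h h2
      · exact h
    omega

/-- `igField k M₀ = k(Z)` as soon as `θ j̄ ∈ k(Z)`. -/
theorem gen_igField_eq (k : Type*) [Field k] (M₀ : ℕ)
    (h : Fermat.Agent.IgusaDeg.theta k (jqModC k) ∈ modularFunctionFieldFullC k M₀) :
    igField k M₀ = modularFunctionFieldFullC k M₀ := by
  apply le_antisymm
  · unfold igField
    rw [IntermediateField.adjoin_le_iff]
    rintro x (hx | hx)
    · exact hx
    · rw [Set.mem_singleton_iff] at hx
      rw [hx]
      exact h
  · exact fullC_le_igField k M₀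

/-- the genus of the Igusa component for `e_m = 1`. -/
theorem gen_genusFF_igField_eq (k : Type*) [Field k] (M₀ : ℕ)
    (h : Fermat.Agent.IgusaDeg.theta k (jqModC k) ∈ modularFunctionFieldFullC k M₀) :
    genusFF k ↥(igField k M₀) = genusFF k ↥(modularFunctionFieldFullC k M₀) := by
  rw [gen_igField_eq k M₀ h]

/-- **the bound `hM` for `q = 2, 3`** (`e_m = 1`, `Fk_m = k(Z)`). -/
theorem gen_hM_small (k : Type) [Field k] (M₀ : ℕ) {q : ℕ} (hq : q = 2 ∨ q = 3)
    (hK : Fermat.Agent.IgusaDeg.theta k (jqModC k) ^ midDeg q ∈ modularFunctionFieldFullC k M₀)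
    (s : ℤ) :
    2 + 2 * (midDeg q : ℤ) * ((genusFF k ↥(modularFunctionFieldFullC k M₀) : ℤ) - 1) +
      ((midDeg q : ℤ) - 1) * s ≤ 2 * (genusFF k ↥(igField k M₀) : ℤ) := by
  have he : midDeg q = 1 := by
    rcases hq with rfl | rfl
    · exact gen_midDeg_two
    · exact gen_midDeg_three
  rw [he, pow_one] at hK
  rw [he, gen_genusFF_igField_eq k M₀ hK]
  push_cast
  linarith

/-- **the bound `hP`**: `q + 1 = |Mid| + 2 g(H_P)` in characteristic `q`. -/
theorem gen_hP {k F : Type*} [Field k] [IsAlgClosed k] [Field F] [Algebra k F] {q : ℕ}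
    (hq : q.Prime) [CharP k q] (H : Fermat.Agent.HP.HPCurve k F q) :
    q + 1 = midCard q + 2 * genusFF k F := by
  have hq1 : ((q + 1 : ℕ) : k) ≠ 0 := by
    rw [Nat.cast_add, CharP.cast_eq_zero k q, zero_add, Nat.cast_one]
    exact one_ne_zero
  by_cases h2 : q = 2
  · subst h2
    have := H.two_genus_even hq1 even_two
    rw [gen_midCard_two]
    omega
  · have hodd : Odd q := hq.odd_of_ne_two h2
    have h2k : (2 : k) ≠ 0 := by
      intro h0
      have h3 : ((2 : ℕ) : k) = 0 := by exact_mod_cast h0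
      rw [CharP.cast_eq_zero_iff k q] at h3
      have := (Nat.prime_dvd_prime_iff_eq hq Nat.prime_two).mp h3
      exact h2 this
    have := H.two_genus_odd hq1 hodd h2k
    rw [gen_midCard_odd h2]
    omega

/-- the bound `hP` in the form of `gen_genus_le_modular`. -/
theorem gen_hP_le {k F : Type*} [Field k] [IsAlgClosed k] [Field F] [Algebra k F] {q μ : ℕ}
    (hq : q.Prime) [CharP k q] (hμ : μ = midCard q) (H : Fermat.Agent.HP.HPCurve k F q) :
    q + 1 ≤ μ + 2 * genusFF k F := by
  rw [hμ]
  exact (gen_hP hq H).le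

end Fermat.Agent.S36G
end
end MergeWrap_S36_Genus_Small
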