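import Mathlib
import Fermat.Agent.MUL.Orig.S36.G.Types
import Fermat.Agent.MUL.S36.Genus.Arith
import Fermat.Agent.MUL.S36.Genus.SS
import Fermat.Agent.MUL.S36.Genus.IgGenus
import Fermat.Agent.MUL.S36.Genus.SSPos
import Fermat.Agent.MUL.S36.Genus.Small
import Fermat.Agent.MUL.S36.Igusa.RR
import Fermat.Agent.MUL.S36.Igusa.DegOf
import Fermat.Agent.MUL.S36.Igusa.Kummer
import Fermat.Agent.MUL.S36.Genus.Hno
import Fermat.Agent.MUL.S36.Seed.UHorDefs

section MergeWrap_S36_Genus_Main -- from S36/Genus/Main.lean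

/-!
# Cluster G (S36), seat GENUS: the genus inequality of the modular graph  (helper98)

The field `genus_le` of `BadRedG.GraphSeed` for the modular graph `K_{|Vert|, s}` of
`X₀(q² M₀)` at `A | q`:

  `g(F) + #Vtx ≤ ∑_c g(Fk_c) + #Nod + 1`,     `Vtx = Vtx Mid SS`, `Nod = SS × Vrt Mid`,

from
* the genus formula at the levels `M₀`, `q M₀`, `q² M₀` (`gen_genusFF_sq`), good reduction at the
  level `M₀` (`gen_genusFF_residue`) and the count of supersingular places (`gen_ss_card_ge`);
* `hM` : the relative Hurwitz lower bound for the Igusa components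
  (`RRRel.two_genus_ge_of_totally_ramified` with `E = Fk₀`, `F = Fk_m`, `T = SS`);
* `hP` : `q + 1 ≤ |Mid| + 2 g(H_P)` (`HP.genus_odd`, `HP.genus_two`).

* `gen_arith_core`     : the pure arithmetic;
* `gen_sum_vtx`        : `∑_{c : Vtx} = g₀ + g₀ + ∑_m + ∑_P`;
* `gen_genus_le`       : the inequality, numeric hypotheses;
* `gen_genus_le_modular` : the inequality for `F = F_{q² M₀}`.
-/

set_option autoImplicit false
set_option linter.unusedSectionVars false
set_option linter.style.haveILetI false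
set_option synthInstance.maxHeartbeats 400000
set_option maxHeartbeats 1000000

noncomputable section

open ModularCurve AlgebraicCurve

namespace Fermat.Agent.S36G

/-- the pure arithmetic of the genus inequality (everything in `ℤ`). -/
theorem gen_arith_core {q G2 G1 G0 s μ e Sm SP : ℤ} (hq : 0 ≤ q) (hμ : 0 ≤ μ)
    (h1 : G2 + q + (q + 1) * G0 = (q + 1) * (G1 + 1))
    (h2 : G1 + 1 ≤ 2 * G0 + s)
    (h3 : μ * e = q - 1)
    (h4 : μ * (2 + 2 * e * (G0 - 1) + (e - 1) * s) ≤ 2 * Sm)
    (h5 : s * (q + 1) ≤ s * μ + 2 * SP) :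
    G2 + (μ + 2 + s) ≤ (G0 + G0 + Sm + SP) + s * (μ + 2) + 1 := by
  have h2' : (q + 1) * (G1 + 1) ≤ (q + 1) * (2 * G0 + s) :=
    mul_le_mul_of_nonneg_left h2 (by linarith)
  have e1 : μ * (2 + 2 * e * (G0 - 1) + (e - 1) * s) =
      2 * μ + 2 * (μ * e) * (G0 - 1) + (μ * e) * s - μ * s := by ring
  rw [e1, h3] at h4
  nlinarith [h1, h2', h4, h5]

section Sum

variable {Mid SS : Type} (k : Type) [Field k] (Fk0 : Type) [Field Fk0] [Algebra k Fk0]
  (FkM : Mid → Type) [∀ m, Field (FkM m)] [∀ m, Algebra k (FkM m)]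
  (FkP : SS → Type) [∀ P, Field (FkP P)] [∀ P, Algebra k (FkP P)]

/-- the sum of the genera over the vertices of the modular graph. -/
theorem gen_sum_vtx [Fintype Mid] [Fintype SS] [iV : Fintype (Vtx Mid SS)] :
    ∑ c : Vtx Mid SS, genusFF k (FkOf Fk0 FkM FkP c) =
      genusFF k Fk0 + genusFF k Fk0 + ∑ m, genusFF k (FkM m) + ∑ P, genusFF k (FkP P) := by
  classical
  obtain rfl : iV = instFintypeVtx := Subsingleton.elim _ _
  rw [← Equiv.sum_comp (vtxEquiv Mid SS).symm, Fintype.sum_sum_type,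
    ← Equiv.sum_comp (vrtEquiv Mid).symm, Fintype.sum_option, Fintype.sum_option]
  simp only [vtxEquiv, vrtEquiv, Equiv.coe_fn_symm_mk]
  rw [add_assoc (genusFF k _) (genusFF k _)]
  rfl

theorem gen_card_vtx [Fintype Mid] [Fintype SS] [iV : Fintype (Vtx Mid SS)] :
    Fintype.card (Vtx Mid SS) = Fintype.card Mid + 2 + Fintype.card SS := by
  obtain rfl : iV = instFintypeVtx := Subsingleton.elim _ _
  exact card_vtx

theorem gen_card_nod [Fintype Mid] [Fintype SS] [iN : Fintype (Nod Mid SS)] :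
    Fintype.card (Nod Mid SS) = Fintype.card SS * (Fintype.card Mid + 2) := by
  obtain rfl : iN = instFintypeProd SS (Vrt Mid) := Subsingleton.elim _ _
  exact card_nod

/-- **the genus inequality, numeric hypotheses**: `G2, G1` are the genera at the levels
`q² M₀`, `q M₀`, and `g₀ = g(Fk₀)` is the genus at the level `M₀`. -/
theorem gen_genus_le [Fintype Mid] [Fintype SS] [Fintype (Vtx Mid SS)] [Fintype (Nod Mid SS)]
    {q G2 G1 e : ℕ}
    (h1 : G2 + q + (q + 1) * genusFF k Fk0 = (q + 1) * (G1 + 1))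
    (h2 : G1 + 1 ≤ 2 * genusFF k Fk0 + Fintype.card SS)
    (h3 : Fintype.card Mid * e = q - 1) (hq : 1 ≤ q)
    (hM : ∀ m, 2 + 2 * (e : ℤ) * ((genusFF k Fk0 : ℤ) - 1) +
      ((e : ℤ) - 1) * (Fintype.card SS : ℤ) ≤ 2 * (genusFF k (FkM m) : ℤ))
    (hP : ∀ P, q + 1 ≤ Fintype.card Mid + 2 * genusFF k (FkP P)) :
    G2 + Fintype.card (Vtx Mid SS) ≤
      (∑ c : Vtx Mid SS, genusFF k (FkOf Fk0 FkM FkP c)) + Fintype.card (Nod Mid SS) + 1 := by
  classical
  rw [gen_sum_vtx, gen_card_vtx, gen_card_nod]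
  have h4 : (Fintype.card Mid : ℤ) * (2 + 2 * (e : ℤ) * ((genusFF k Fk0 : ℤ) - 1) +
      ((e : ℤ) - 1) * (Fintype.card SS : ℤ)) ≤ 2 * ((∑ m, genusFF k (FkM m) : ℕ) : ℤ) := by
    have := Finset.sum_le_sum (s := (Finset.univ : Finset Mid)) fun m _ => hM m
    rw [Finset.sum_const, Finset.card_univ, nsmul_eq_mul, ← Finset.mul_sum] at this
    push_cast
    exact this
  have h5 : (Fintype.card SS : ℤ) * ((q : ℤ) + 1) ≤
      (Fintype.card SS : ℤ) * (Fintype.card Mid : ℤ) + 2 * ((∑ P, genusFF k (FkP P) : ℕ) : ℤ) := by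
    have := Finset.sum_le_sum (s := (Finset.univ : Finset SS)) fun P _ => hP P
    rw [Finset.sum_const, Finset.card_univ, smul_eq_mul, Finset.sum_add_distrib, Finset.sum_const,
      Finset.card_univ, smul_eq_mul, ← Finset.mul_sum] at this
    exact_mod_cast this
  have h3' : (Fintype.card Mid : ℤ) * (e : ℤ) = (q : ℤ) - 1 := by
    have : ((Fintype.card Mid * e : ℕ) : ℤ) = ((q - 1 : ℕ) : ℤ) := by rw [h3]
    rw [Nat.cast_sub hq] at this
    exact_mod_cast this
  have h1' : (G2 : ℤ) + q + ((q : ℤ) + 1) * (genusFF k Fk0 : ℤ) = ((q : ℤ) + 1) * ((G1 : ℤ) + 1) := by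
    exact_mod_cast h1
  have h2' : (G1 : ℤ) + 1 ≤ 2 * (genusFF k Fk0 : ℤ) + (Fintype.card SS : ℤ) := by
    exact_mod_cast h2
  have key := gen_arith_core (Int.natCast_nonneg q) (Int.natCast_nonneg (Fintype.card Mid))
    h1' h2' h3' h4 h5
  have : ((G2 + (Fintype.card Mid + 2 + Fintype.card SS) : ℕ) : ℤ) ≤
      ((genusFF k Fk0 + genusFF k Fk0 + ∑ m, genusFF k (FkM m) + ∑ P, genusFF k (FkP P) +
        Fintype.card SS * (Fintype.card Mid + 2) + 1 : ℕ) : ℤ) := by
    push_cast
    push_cast at key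
    linarith
  exact_mod_cast this

end Sum

local notation "Qb" => AlgebraicClosure ℚ

/-- **GENUS**: the genus inequality of the modular graph of `X₀(q² M₀)` at `A | q`
(`M₀` without elliptic points; `q = 2`: `3 ∣ M₀`; `q = 3`: `2 ∣ M₀`), from the lower bounds for the
genera of the Igusa components (`hM`) and of the horizontal components (`hP`). -/
theorem gen_genus_le_modular (M₀ N₂ : ℕ) [NeZero M₀] [NeZero N₂] {q : ℕ} (hq : q.Prime)
    (hqM : ¬ q ∣ M₀) (hN₂ : N₂ = q * (q * M₀)) (hν2 : nuTwo M₀ = 0) (hν3 : nuThree M₀ = 0)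
    (h2 : q = 2 → 3 ∣ M₀) (h3 : q = 3 → 2 ∣ M₀)
    {A : ValuationSubring Qb} (hA : A.LiesOverPrime q)
    {Mid SS : Type} [Fintype Mid] [Fintype SS] [Fintype (Vtx Mid SS)] [Fintype (Nod Mid SS)]
    (FkM : Mid → Type) [∀ m, Field (FkM m)] [∀ m, Algebra (IsLocalRing.ResidueField A) (FkM m)]
    (FkP : SS → Type) [∀ P, Field (FkP P)] [∀ P, Algebra (IsLocalRing.ResidueField A) (FkP P)]
    {e : ℕ} (hMid : Fintype.card Mid * e = q - 1)
    (hSS : Nat.card {P : Place (IsLocalRing.ResidueField A)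
        ↥(modularFunctionFieldFullC (IsLocalRing.ResidueField A) M₀) //
          IsSSPlace (IsLocalRing.ResidueField A) M₀ q P} ≤ Fintype.card SS)
    (hM : ∀ m, 2 + 2 * (e : ℤ) * ((genusFF (IsLocalRing.ResidueField A)
        ↥(modularFunctionFieldFullC (IsLocalRing.ResidueField A) M₀) : ℤ) - 1) +
      ((e : ℤ) - 1) * (Fintype.card SS : ℤ) ≤
        2 * (genusFF (IsLocalRing.ResidueField A) (FkM m) : ℤ))
    (hP : ∀ P, q + 1 ≤ Fintype.card Mid + 2 * genusFF (IsLocalRing.ResidueField A) (FkP P)) :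
    genusFF Qb ↥(modularFunctionFieldBar N₂) + Fintype.card (Vtx Mid SS) ≤
      (∑ c : Vtx Mid SS, genusFF (IsLocalRing.ResidueField A)
        (FkOf ↥(modularFunctionFieldFullC (IsLocalRing.ResidueField A) M₀) FkM FkP c)) +
        Fintype.card (Nod Mid SS) + 1 := by
  haveI : NeZero (q * M₀) := ⟨Nat.mul_ne_zero hq.ne_zero (NeZero.ne M₀)⟩
  have hres := gen_genusFF_residue M₀ hq hqM h2 h3 hA
  have hsq := gen_genusFF_sq (N₁ := q * M₀) (N₂ := N₂) hq hqM rfl hN₂ hν2 hν3
  have hss := gen_ss_card_ge M₀ (q * M₀) hq hqM rfl h2 h3 hA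
  rw [hres] at hsq
  exact gen_genus_le (IsLocalRing.ResidueField A) _ FkM FkP hsq (hss.trans (by omega)) hMid
    hq.one_le hM hP

end Fermat.Agent.S36G
end
end MergeWrap_S36_Genus_Main

section MergeWrap_S36_Genus_IgWire -- from S36/Genus/IgWire.lean

set_option autoImplicit false
set_option linter.style.haveILetI false
set_option linter.unusedSectionVars false

noncomputable section

open AlgebraicCurve IntermediateField ModularCurve

namespace Fermat.Agent.S36G

open Fermat.Agent.RR Fermat.Agent.GaussInt Fermat.Agent.BadRed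

section Wire

set_option synthInstance.maxHeartbeats 400000
set_option maxHeartbeats 1000000

local notation "Qb" => AlgebraicClosure ℚ

/-- **the bound `hM` for the Igusa component, all `q`**, from `hno` (asked for `5 ≤ q` only). -/
theorem ig_hM_of_hno (M₀ : ℕ) [NeZero M₀] {q : ℕ} (hq : q.Prime) (hqM : ¬ q ∣ M₀)
    (hν2 : nuTwo M₀ = 0) (hν3 : nuThree M₀ = 0)
    {A : ValuationSubring Qb} (hA : A.LiesOverPrime q)
    (hno : 5 ≤ q → ∀ P : Place (IsLocalRing.ResidueField A)
        ↥(modularFunctionFieldFullC (IsLocalRing.ResidueField A) M₀),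
      IsSSPlace (IsLocalRing.ResidueField A) M₀ q P →
        ∀ u : ↥(modularFunctionFieldFullC (IsLocalRing.ResidueField A) M₀),
          (u : LaurentSeries (IsLocalRing.ResidueField A)) =
            ssFun (IsLocalRing.ResidueField A) q → P.ord u = 12) :
    2 + 2 * (midDeg q : ℤ) * ((genusFF (IsLocalRing.ResidueField A)
        ↥(modularFunctionFieldFullC (IsLocalRing.ResidueField A) M₀) : ℤ) - 1) +
      ((midDeg q : ℤ) - 1) *
        (Nat.card {P : Place (IsLocalRing.ResidueField A)
          ↥(modularFunctionFieldFullC (IsLocalRing.ResidueField A) M₀) //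
            IsSSPlace (IsLocalRing.ResidueField A) M₀ q P} : ℤ) ≤
        2 * (genusFF (IsLocalRing.ResidueField A)
          ↥(igField (IsLocalRing.ResidueField A) M₀) : ℤ) := by
  haveI := isAlgClosed_residue A
  haveI : Fact q.Prime := ⟨hq⟩
  haveI : CharP (IsLocalRing.ResidueField A) q := Fermat.Agent.FrobTrace.charP_residueField A hA
  by_cases h5 : 5 ≤ q
  · have h2 : q ≠ 2 := by omega
    have h3 : q ≠ 3 := by omega
    have hRR := igRR M₀ q hq hqM (IsLocalRing.ResidueField A)
    obtain ⟨⟨P₀, hP₀⟩⟩ := gen_nonempty_isSSPlace M₀ hq hqM hν2 hν3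
      (fun h => absurd h h2) (fun h => absurd h h3) hA
    refine ig_hM_at M₀ hq hqM h2 h3 hA
      (fun P hP Q Q' hQ hQ' =>
        igTotRam M₀ q hq hqM (IsLocalRing.ResidueField A) P hP (hno h5 P hP) Q Q' hQ hQ')
      (igDegree_core M₀ q hq hqM (IsLocalRing.ResidueField A) hRR P₀ hP₀ (hno h5 P₀ hP₀))
      hRR (isSeparable_igField' (IsLocalRing.ResidueField A) M₀ q)
  · have h23 : q = 2 ∨ q = 3 := by
      have := hq.two_le
      have h4 : q ≠ 4 := by
        rintro rfl
        exact absurd hq (by decide)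
      omega
    exact gen_hM_small (IsLocalRing.ResidueField A) M₀ h23
      (igKummer M₀ q hq (IsLocalRing.ResidueField A)) _

end Wire

end Fermat.Agent.S36G
end
end MergeWrap_S36_Genus_IgWire

section MergeWrap_S36_Genus_Final -- from S36/Genus/Final.lean

/-!
# Cluster G (S36), seat GENUS: the genus inequality of the modular graph, FINAL  (helper98)

`gen_genus_le_final`: the field `genus_le` of `BadRedG.GraphSeed` for the modular graph of
`X₀(q² M₀)` at `A | q`, UNCONDITIONAL (`q ∤ M₀` prime, `M₀` without elliptic points; `q = 2`: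
`3 ∣ M₀`; `q = 3`: `2 ∣ M₀`), with

* vertices `Vtx Mid SS`, `|Mid| = midCard q`, `|SS| = ` the number of supersingular places of
  `X₀(M₀)` mod `q`;
* residue fields `Fk₀ = k(Z)` (`∞`, `0`), `Fk_m = igField k M₀` (middle vertices) and
  `FkP P = k(H_P)` (ANY field carrying an `HPCurve` structure over `k`).

Inputs (all on main): the genus formula (S24), good reduction at `M₀`, the count of the
supersingular places (cluster T), `ord_P ssFun = 12` (`gen_hno`), the relative Riemann–Hurwitz
bound for the Igusa component (`ig_hM_of_hno`, helper63, with helper24's `igTotRam`,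
`igDegree_core` and helper1's `igRR`), the genus of `H_P` (helper48).

* `gen_hM_final`       : the bound `hM`, all `q`;
* `gen_genus_le_final` : the genus inequality;
* `gen_genus_le_ss`    : the same with `SS :=` the type of the supersingular places.
-/

set_option autoImplicit false
set_option linter.unusedSectionVars false
set_option linter.style.haveILetI false
set_option synthInstance.maxHeartbeats 400000
set_option maxHeartbeats 1000000

noncomputable section

open ModularCurve AlgebraicCurve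

namespace Fermat.Agent.S36G

/- build-time recipe (helper70): the two instances found by typeclass search, tried first. -/
attribute [local instance 10000] SubalgebraClass.toAlgebra HahnSeries.powerSeriesAlgebra


local notation "Qb" => AlgebraicClosure ℚ

/-- **the bound `hM` for the Igusa component, all `q`, unconditional**. -/
theorem gen_hM_final (M₀ : ℕ) [NeZero M₀] {q : ℕ} (hq : q.Prime) (hqM : ¬ q ∣ M₀)
    (hν2 : nuTwo M₀ = 0) (hν3 : nuThree M₀ = 0)
    {A : ValuationSubring Qb} (hA : A.LiesOverPrime q) :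
    2 + 2 * (midDeg q : ℤ) * ((genusFF (IsLocalRing.ResidueField A)
        ↥(modularFunctionFieldFullC (IsLocalRing.ResidueField A) M₀) : ℤ) - 1) +
      ((midDeg q : ℤ) - 1) *
        (Nat.card {P : Place (IsLocalRing.ResidueField A)
          ↥(modularFunctionFieldFullC (IsLocalRing.ResidueField A) M₀) //
            IsSSPlace (IsLocalRing.ResidueField A) M₀ q P} : ℤ) ≤
        2 * (genusFF (IsLocalRing.ResidueField A)
          ↥(igField (IsLocalRing.ResidueField A) M₀) : ℤ) :=
  ig_hM_of_hno M₀ hq hqM hν2 hν3 hA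
    (fun h5 P hP u hu => gen_hno M₀ hq h5 hqM hν2 hν3 hA P hP u hu)

/-- **GENUS, final form**: the genus inequality of the modular graph of `X₀(q² M₀)` at `A | q`. -/
theorem gen_genus_le_final (M₀ N₂ : ℕ) [NeZero M₀] [NeZero N₂] {q : ℕ} (hq : q.Prime)
    (hqM : ¬ q ∣ M₀) (hN₂ : N₂ = q * (q * M₀)) (hν2 : nuTwo M₀ = 0) (hν3 : nuThree M₀ = 0)
    (h2 : q = 2 → 3 ∣ M₀) (h3 : q = 3 → 2 ∣ M₀)
    {A : ValuationSubring Qb} (hA : A.LiesOverPrime q)
    {Mid SS : Type} [Fintype Mid] [Fintype SS] [Fintype (Vtx Mid SS)] [Fintype (Nod Mid SS)]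
    (hMid : Fintype.card Mid = midCard q)
    (hSS : Fintype.card SS = Nat.card {P : Place (IsLocalRing.ResidueField A)
        ↥(modularFunctionFieldFullC (IsLocalRing.ResidueField A) M₀) //
          IsSSPlace (IsLocalRing.ResidueField A) M₀ q P})
    (FkP : SS → Type) [∀ P, Field (FkP P)] [∀ P, Algebra (IsLocalRing.ResidueField A) (FkP P)]
    (H : ∀ P, Fermat.Agent.HP.HPCurve (IsLocalRing.ResidueField A) (FkP P) q) :
    genusFF Qb ↥(modularFunctionFieldBar N₂) + Fintype.card (Vtx Mid SS) ≤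
      (∑ c : Vtx Mid SS, genusFF (IsLocalRing.ResidueField A)
        (FkOf ↥(modularFunctionFieldFullC (IsLocalRing.ResidueField A) M₀)
          (fun _ : Mid => ↥(igField (IsLocalRing.ResidueField A) M₀)) FkP c)) +
        Fintype.card (Nod Mid SS) + 1 := by
  haveI : Fact q.Prime := ⟨hq⟩
  haveI : CharP (IsLocalRing.ResidueField A) q := Fermat.Agent.FrobTrace.charP_residueField A hA
  haveI : IsAlgClosed (IsLocalRing.ResidueField A) := Fermat.Agent.GaussInt.isAlgClosed_residue A
  refine gen_genus_le_modular M₀ N₂ hq hqM hN₂ hν2 hν3 h2 h3 hA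
    (fun _ : Mid => ↥(igField (IsLocalRing.ResidueField A) M₀)) FkP (e := midDeg q)
    (by rw [hMid]; exact gen_midCard_mul_midDeg hq) hSS.ge ?_ ?_
  · intro _
    rw [hSS]
    exact gen_hM_final M₀ hq hqM hν2 hν3 hA
  · intro P
    exact gen_hP_le hq hMid (H P)

/-- the type of the supersingular places of `X₀(M₀)` mod `q` at `A`. -/
abbrev SSPl (M₀ q : ℕ) (A : ValuationSubring Qb) : Type :=
  {P : Place (IsLocalRing.ResidueField A)
    ↥(modularFunctionFieldFullC (IsLocalRing.ResidueField A) M₀) //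
      IsSSPlace (IsLocalRing.ResidueField A) M₀ q P}

/-- **GENUS, final form, `SS :=` the supersingular places** (any `Fintype` instance). -/
theorem gen_genus_le_ss (M₀ N₂ : ℕ) [NeZero M₀] [NeZero N₂] {q : ℕ} (hq : q.Prime)
    (hqM : ¬ q ∣ M₀) (hN₂ : N₂ = q * (q * M₀)) (hν2 : nuTwo M₀ = 0) (hν3 : nuThree M₀ = 0)
    (h2 : q = 2 → 3 ∣ M₀) (h3 : q = 3 → 2 ∣ M₀)
    {A : ValuationSubring Qb} (hA : A.LiesOverPrime q)
    {Mid : Type} [Fintype Mid] [Fintype (SSPl M₀ q A)] [Fintype (Vtx Mid (SSPl M₀ q A))]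
    [Fintype (Nod Mid (SSPl M₀ q A))]
    (hMid : Fintype.card Mid = midCard q)
    (FkP : SSPl M₀ q A → Type) [∀ P, Field (FkP P)]
    [∀ P, Algebra (IsLocalRing.ResidueField A) (FkP P)]
    (H : ∀ P, Fermat.Agent.HP.HPCurve (IsLocalRing.ResidueField A) (FkP P) q) :
    genusFF Qb ↥(modularFunctionFieldBar N₂) + Fintype.card (Vtx Mid (SSPl M₀ q A)) ≤
      (∑ c : Vtx Mid (SSPl M₀ q A), genusFF (IsLocalRing.ResidueField A)
        (FkOf ↥(modularFunctionFieldFullC (IsLocalRing.ResidueField A) M₀)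
          (fun _ : Mid => ↥(igField (IsLocalRing.ResidueField A) M₀)) FkP c)) +
        Fintype.card (Nod Mid (SSPl M₀ q A)) + 1 :=
  gen_genus_le_final M₀ N₂ hq hqM hN₂ hν2 hν3 h2 h3 hA hMid
    (Nat.card_eq_fintype_card).symm FkP H

end Fermat.Agent.S36G
end
end MergeWrap_S36_Genus_Final

section MergeWrap_S36_Genus_Family -- from S36/Genus/Family.lean

/-!
# Cluster G (S36), seat MG-GENUS (helper91): `hgenus` of the modular family

helper98's `gen_genus_le_final` (`S36/Genus/Final.lean`) in the shape in which the modular seed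
consumes it (`ModMatchInput.seed`, `hgenus`): level `M = M₀ * q * q` (as in `WPOut`), the
supersingular vertices `SS` given by a bijection onto the supersingular places.

* `gen_card_ss_of_bijective` : `#SS = ` the number of supersingular places, from a bijection;
* `gen_genus_le_family`      : `g(F_M) + #Vtx ≤ ∑_c g(Fk_c) + #Nod + 1` for `M = M₀ * q * q`,
  `Fk_m = igField k M₀`, `FkP P` carrying an `HPCurve` (e.g. `(O P).H`, `O P : WPOut ..`).
-/

set_option autoImplicit false
set_option linter.unusedSectionVars false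
set_option linter.style.haveILetI false
set_option synthInstance.maxHeartbeats 400000
set_option maxHeartbeats 1000000

noncomputable section

open ModularCurve AlgebraicCurve

namespace Fermat.Agent.S36G

local notation "Qb" => AlgebraicClosure ℚ

/-- the number of the supersingular vertices, from a bijection onto the supersingular places. -/
theorem gen_card_ss_of_bijective (M₀ : ℕ) [NeZero M₀] (q : ℕ) (A : ValuationSubring Qb)
    {SS : Type} [Fintype SS] (f : SS → SSPl M₀ q A) (hf : Function.Bijective f) :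
    Fintype.card SS = Nat.card (SSPl M₀ q A) := by
  rw [← Nat.card_eq_fintype_card]
  exact Nat.card_eq_of_bijective f hf

/-- **MG-GENUS**: the genus inequality `hgenus` of the modular family at the level
`M = M₀ * q * q`. -/
theorem gen_genus_le_family (M₀ M : ℕ) [NeZero M₀] [NeZero M] {q : ℕ} (hq : q.Prime)
    (hqM : ¬ q ∣ M₀) (hM : M = M₀ * q * q) (hν2 : nuTwo M₀ = 0) (hν3 : nuThree M₀ = 0)
    (h2 : q = 2 → 3 ∣ M₀) (h3 : q = 3 → 2 ∣ M₀)
    {A : ValuationSubring Qb} (hA : A.LiesOverPrime q)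
    {Mid SS : Type} [Fintype Mid] [Fintype SS] [Fintype (Vtx Mid SS)] [Fintype (Nod Mid SS)]
    (hMid : Fintype.card Mid = midCard q)
    (f : SS → SSPl M₀ q A) (hf : Function.Bijective f)
    (FkP : SS → Type) [∀ P, Field (FkP P)] [∀ P, Algebra (IsLocalRing.ResidueField A) (FkP P)]
    (H : ∀ P, Fermat.Agent.HP.HPCurve (IsLocalRing.ResidueField A) (FkP P) q) :
    genusFF Qb ↥(modularFunctionFieldBar M) + Fintype.card (Vtx Mid SS) ≤
      (∑ c : Vtx Mid SS, genusFF (IsLocalRing.ResidueField A)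
        (FkOf ↥(modularFunctionFieldFullC (IsLocalRing.ResidueField A) M₀)
          (fun _ : Mid => ↥(igField (IsLocalRing.ResidueField A) M₀)) FkP c)) +
        Fintype.card (Nod Mid SS) + 1 :=
  gen_genus_le_final M₀ M hq hqM (by rw [hM]; ring) hν2 hν3 h2 h3 hA hMid
    (gen_card_ss_of_bijective M₀ q A f hf) FkP H

end Fermat.Agent.S36G
end
end MergeWrap_S36_Genus_Family
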